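/-
S19 Part C, block SLR (helper263): the abstract semilocal root lemma.

`B` noetherian domain with fraction field `F`, `O ⊇ B` a valuation subring, `π ∈ B` with the
`q`-expansion principle, `B / π` a Dedekind domain, `S` a saturated multiplicative subset of `B`
stable under translation by `π B` and `g B` (`g` nonzero modulo `π`), none of whose elements is
divisible by `π`.  Then `S⁻¹ B` is a UFD, and `t ^ m * h = a / b` with `a, b ∈ S`.
-/
import Mathlib
import Fermat.Agent.S18.Abs.LocalGen

set_option autoImplicit false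

namespace Fermat.Agent.S19.Int

open Fermat.Agent.S18.Abs

/-! ### Jacobson radical versions of the principal prime lemma -/

theorem prime_principal_of_quotient_pir_jac {R : Type*} [CommRing R]
    [IsNoetherianRing R] (π : R) (hπ : π ∈ (⊥ : Ideal R).jacobson)
    [hP : IsPrincipalIdealRing (R ⧸ Ideal.span {π})]
    (q : Ideal R) [hq : q.IsPrime] (hπq : π ∉ q) : ∃ g ∈ q, q = Ideal.span {g} := by
  classical
  set mk := Ideal.Quotient.mk (Ideal.span {π}) with hmk
  have hsurj : Function.Surjective mk := Ideal.Quotient.mk_surjective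
  obtain ⟨gbar, hgbar⟩ := (hP.principal (q.map mk)).principal
  have hgmem : gbar ∈ q.map mk := by
    rw [hgbar]; exact Submodule.mem_span_singleton_self gbar
  obtain ⟨g, hgq, rfl⟩ := (Ideal.mem_map_iff_of_surjective mk hsurj).1 hgmem
  refine ⟨g, hgq, le_antisymm ?_ ((Ideal.span_singleton_le_iff_mem _).2 hgq)⟩
  have hle : q ≤ Ideal.span {g} ⊔ (Ideal.span {π}) • q := by
    intro y hy
    have hy' : mk y ∈ q.map mk := Ideal.mem_map_of_mem mk hy
    rw [hgbar] at hy'
    obtain ⟨rbar, hr⟩ := (Submodule.mem_span_singleton).1 hy'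
    obtain ⟨r, rfl⟩ := hsurj rbar
    have h1 : mk (y - r * g) = 0 := by
      rw [map_sub, map_mul, ← hr]; simp
    rw [hmk, Ideal.Quotient.eq_zero_iff_mem, Ideal.mem_span_singleton'] at h1
    obtain ⟨z, hz⟩ := h1
    have hzq : z ∈ q := by
      have : z * π ∈ q := by
        rw [hz]; exact q.sub_mem hy (q.mul_mem_left r hgq)
      rcases hq.mem_or_mem this with h | h
      · exact h
      · exact absurd h hπq
    have : y = r * g + π * z := by
      have : y - r * g = π * z := by rw [← hz]; ring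
      linear_combination this
    rw [this]
    refine Submodule.add_mem_sup (Ideal.mul_mem_left _ r (Ideal.mem_span_singleton_self g)) ?_
    exact Submodule.smul_mem_smul (Ideal.mem_span_singleton_self π) hzq
  refine Submodule.le_of_le_smul_of_le_jacobson_bot (IsNoetherian.noetherian q) ?_ hle
  exact (Ideal.span_singleton_le_iff_mem _).2 hπ

theorem ufd_of_quotient_pid_jac {R : Type*} [CommRing R] [IsDomain R]
    [IsNoetherianRing R] (π : R) (hπ : π ∈ (⊥ : Ideal R).jacobson) (hπ0 : π ≠ 0)
    [IsPrincipalIdealRing (R ⧸ Ideal.span {π})] [IsDomain (R ⧸ Ideal.span {π})] :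
    UniqueFactorizationMonoid R := by
  rw [UniqueFactorizationMonoid.iff_exists_prime_mem_of_isPrime]
  intro I hI hIp
  have hπprime : Prime π := by
    rw [← Ideal.span_singleton_prime hπ0]
    exact (Ideal.Quotient.isDomain_iff_prime _).1 inferInstance
  by_cases h : π ∈ I
  · exact ⟨π, h, hπprime⟩
  · obtain ⟨g, hg, hIg⟩ := prime_principal_of_quotient_pir_jac π hπ I h
    refine ⟨g, hg, ?_⟩
    have hg0 : g ≠ 0 := by
      rintro rfl
      apply hI
      rw [hIg]; simp
    rw [← Ideal.span_singleton_prime hg0, ← hIg]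
    exact hIp

/-! ### A Dedekind domain whose Jacobson radical is nonzero is principal -/

theorem pid_of_mem_jacobson {D : Type*} [CommRing D] [IsDedekindDomain D] (g : D) (hg0 : g ≠ 0)
    (hg : g ∈ (⊥ : Ideal D).jacobson) : IsPrincipalIdealRing D := by
  apply IsPrincipalIdealRing.of_finite_maximals
  apply (Ideal.finite_minimalPrimes_of_isNoetherianRing D (Ideal.span {g})).subset
  intro M hM
  have hM' : M.IsMaximal := hM
  have hgM : g ∈ M := by
    rw [Ideal.jacobson, Submodule.mem_sInf] at hg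
    exact hg M ⟨bot_le, hM'⟩
  refine ⟨⟨hM'.isPrime, (Ideal.span_singleton_le_iff_mem _).2 hgM⟩, ?_⟩
  rintro Q ⟨hQ, hgQ⟩ hQM
  have hQ0 : Q ≠ ⊥ := by
    rintro rfl
    exact hg0 (by simpa using hgQ)
  have hQmax : Q.IsMaximal := hQ.isMaximal hQ0
  exact (hQmax.eq_of_le hM'.ne_top hQM).ge

/-! ### The semilocalisation -/

section

set_option linter.unusedSectionVars false

variable {B F : Type*} [CommRing B] [IsDomain B] [Field F] [Algebra B F]
  [IsFractionRing B F]

theorem sl_mem_O (O : ValuationSubring F) (π : B)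
    (hQEP : ∀ b : B, algebraMap B F b / algebraMap B F π ∈ O → π ∣ b)
    (hBO : ∀ b : B, algebraMap B F b ∈ O)
    (hOmax : ∀ y ∈ O, y⁻¹ ∉ O → y / algebraMap B F π ∈ O)
    (S : Submonoid B) (hS3 : ∀ s ∈ S, ¬ π ∣ s)
    (R : Type*) [CommRing R] [Algebra B R] [IsLocalization S R] [Algebra R F]
    [IsScalarTower B R F] (r : R) : algebraMap R F r ∈ O := by
  obtain ⟨b, s, rfl⟩ := IsLocalization.exists_mk'_eq S r
  have hs0 : (s : B) ≠ 0 := fun h0 => hS3 s s.2 (h0 ▸ dvd_zero π)
  have hsF : algebraMap B F s ≠ 0 := by simpa using hs0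
  have e : algebraMap R F (IsLocalization.mk' R b s) = algebraMap B F b * (algebraMap B F s)⁻¹ := by
    rw [← div_eq_mul_inv, eq_div_iff hsF, IsScalarTower.algebraMap_apply B R F (s : B), ← map_mul,
      IsLocalization.mk'_spec, ← IsScalarTower.algebraMap_apply]
  rw [e]
  refine O.mul_mem _ _ (hBO b) ?_
  by_contra hcon
  exact hS3 s s.2 (hQEP s (hOmax _ (hBO s) hcon))

theorem sl_qep (O : ValuationSubring F) (π : B)
    (hQEP : ∀ b : B, algebraMap B F b / algebraMap B F π ∈ O → π ∣ b)
    (hBO : ∀ b : B, algebraMap B F b ∈ O)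
    (S : Submonoid B) (hS3 : ∀ s ∈ S, ¬ π ∣ s)
    (R : Type*) [CommRing R] [Algebra B R] [IsLocalization S R] [Algebra R F]
    [IsScalarTower B R F] (r : R) (hr : algebraMap R F r / algebraMap B F π ∈ O) :
    algebraMap B R π ∣ r := by
  obtain ⟨b, s, rfl⟩ := IsLocalization.exists_mk'_eq S r
  have hs0 : (s : B) ≠ 0 := fun h0 => hS3 s s.2 (h0 ▸ dvd_zero π)
  have hsF : algebraMap B F s ≠ 0 := by simpa using hs0
  have e : algebraMap R F (IsLocalization.mk' R b s) = algebraMap B F b / algebraMap B F s := by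
    rw [eq_div_iff hsF, IsScalarTower.algebraMap_apply B R F (s : B), ← map_mul,
      IsLocalization.mk'_spec, ← IsScalarTower.algebraMap_apply]
  have : algebraMap B F b / algebraMap B F π ∈ O := by
    have h2 := O.mul_mem _ _ (hBO s) hr
    rw [e] at h2
    convert h2 using 1
    field_simp
  obtain ⟨c, rfl⟩ := hQEP b this
  refine ⟨IsLocalization.mk' R c s, ?_⟩
  rw [← IsLocalization.mul_mk'_eq_mk'_of_mul]

/-- an element `x` of `B` such that `S + x B ⊆ S` lies in the Jacobson radical of `S⁻¹ B`. -/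
theorem sl_mem_jacobson (x : B) (S : Submonoid B) (hSx : ∀ s ∈ S, ∀ c, s + x * c ∈ S)
    (R : Type*) [CommRing R] [Algebra B R] [IsLocalization S R] :
    algebraMap B R x ∈ (⊥ : Ideal R).jacobson := by
  rw [Ideal.mem_jacobson_bot]
  intro r
  obtain ⟨c, s, rfl⟩ := IsLocalization.exists_mk'_eq S r
  have hu : IsUnit (algebraMap B R s) := IsLocalization.map_units R s
  have hu' : IsUnit (algebraMap B R (s + x * c)) :=
    IsLocalization.map_units R (⟨s + x * c, hSx s s.2 c⟩ : S)
  have e : algebraMap B R s * (algebraMap B R x * IsLocalization.mk' R c s + 1) =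
      algebraMap B R (s + x * c) := by
    rw [mul_add, mul_one, mul_left_comm, IsLocalization.mk'_spec', map_add, map_mul, add_comm]
  rw [← e] at hu'
  exact isUnit_of_mul_isUnit_right hu'

theorem sl_prime (O : ValuationSubring F) (π : B) (hπ0 : π ≠ 0)
    (hQEP : ∀ b : B, algebraMap B F b / algebraMap B F π ∈ O → π ∣ b)
    (hBO : ∀ b : B, algebraMap B F b ∈ O)
    (hOmax : ∀ y ∈ O, y⁻¹ ∉ O → y / algebraMap B F π ∈ O)
    (hπO : (algebraMap B F π)⁻¹ ∉ O)
    (S : Submonoid B) (hS3 : ∀ s ∈ S, ¬ π ∣ s)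
    (R : Type*) [CommRing R] [Algebra B R] [IsLocalization S R] [Algebra R F]
    [IsScalarTower B R F] [IsFractionRing R F] : Prime (algebraMap B R π) := by
  have hinjRF : Function.Injective (algebraMap R F) := IsFractionRing.injective R F
  have hπF : algebraMap B F π ≠ 0 := by simpa using hπ0
  have hmap : algebraMap R F (algebraMap B R π) = algebraMap B F π :=
    (IsScalarTower.algebraMap_apply B R F π).symm
  refine ⟨?_, ?_, ?_⟩
  · intro h0
    rw [h0, map_zero] at hmap
    exact hπF hmap.symm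
  · intro hu
    obtain ⟨v, hv⟩ := hu.exists_right_inv
    apply hπO
    have h1 : algebraMap B F π * algebraMap R F v = 1 := by
      rw [← hmap, ← map_mul, hv, map_one]
    rw [← eq_inv_of_mul_eq_one_right h1]
    exact sl_mem_O O π hQEP hBO hOmax S hS3 R v
  · intro a b hab
    obtain ⟨c, hc⟩ := hab
    have haO := sl_mem_O O π hQEP hBO hOmax S hS3 R a
    have hcO := sl_mem_O O π hQEP hBO hOmax S hS3 R c
    by_cases ha0 : a = 0
    · left; rw [ha0]; exact dvd_zero _
    have ha0F : algebraMap R F a ≠ 0 := (map_ne_zero_iff _ hinjRF).2 ha0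
    by_cases ha : (algebraMap R F a)⁻¹ ∈ O
    · right
      apply sl_qep O π hQEP hBO S hS3 R
      have : algebraMap R F b / algebraMap B F π = (algebraMap R F a)⁻¹ * algebraMap R F c := by
        have h1 : algebraMap R F (a * b) = algebraMap R F (algebraMap B R π * c) := by rw [hc]
        rw [map_mul, map_mul, ← IsScalarTower.algebraMap_apply] at h1
        field_simp
        linear_combination h1
      rw [this]
      exact O.mul_mem _ _ ha hcO
    · left
      exact sl_qep O π hQEP hBO S hS3 R a (hOmax _ haO ha)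

/-- `S⁻¹ B / π` is a principal ideal domain. -/
theorem sl_quotient_pid (π : B) [IsDedekindDomain (B ⧸ Ideal.span {π})]
    (g : B) (S : Submonoid B) (hSg : ∀ s ∈ S, ∀ c, s + g * c ∈ S) (hS3 : ∀ s ∈ S, ¬ π ∣ s)
    (R : Type*) [CommRing R] [Algebra B R] [IsLocalization S R]
    (hprime : Prime (algebraMap B R π)) (hg : ¬ algebraMap B R π ∣ algebraMap B R g) :
    IsDomain (R ⧸ Ideal.span {algebraMap B R π}) ∧
      IsPrincipalIdealRing (R ⧸ Ideal.span {algebraMap B R π}) := by
  have hI : (Ideal.span {π}).map (algebraMap B R) = Ideal.span {algebraMap B R π} := by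
    rw [Ideal.map_span, Set.image_singleton]
  rw [← hI]
  have hIprime : ((Ideal.span {π}).map (algebraMap B R)).IsPrime := by
    rw [hI]
    exact (Ideal.span_singleton_prime hprime.ne_zero).2 hprime
  have hdom : IsDomain (R ⧸ (Ideal.span {π}).map (algebraMap B R)) :=
    (Ideal.Quotient.isDomain_iff_prime _).2 hIprime
  refine ⟨hdom, ?_⟩
  have hM : Algebra.algebraMapSubmonoid (B ⧸ Ideal.span {π}) S ≤
      nonZeroDivisors (B ⧸ Ideal.span {π}) := by
    rintro _ ⟨s, hs, rfl⟩
    apply mem_nonZeroDivisors_of_ne_zero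
    intro h0
    apply hS3 s hs
    have h1 : Ideal.Quotient.mk (Ideal.span {π}) s = 0 := h0
    rwa [Ideal.Quotient.eq_zero_iff_mem, Ideal.mem_span_singleton] at h1
  have hded : IsDedekindDomain (R ⧸ (Ideal.span {π}).map (algebraMap B R)) :=
    IsLocalization.isDedekindDomain (B ⧸ Ideal.span {π}) hM _
  apply pid_of_mem_jacobson (Ideal.Quotient.mk _ (algebraMap B R g))
  · intro h0
    rw [Ideal.Quotient.eq_zero_iff_mem, hI, Ideal.mem_span_singleton] at h0
    exact hg h0
  · have hj := sl_mem_jacobson g S hSg R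
    rw [Ideal.mem_jacobson_bot] at hj ⊢
    intro y
    obtain ⟨y, rfl⟩ := Ideal.Quotient.mk_surjective y
    rw [← map_mul, ← map_one (Ideal.Quotient.mk _), ← map_add]
    exact (hj y).map _

end

variable {B F : Type*} [CommRing B] [IsDomain B] [IsNoetherianRing B] [Field F] [Algebra B F]
  [IsFractionRing B F]

theorem exists_semilocal_root_aux (O : ValuationSubring F) (π : B) (hπ0 : π ≠ 0)
    (hQEP : ∀ b : B, algebraMap B F b / algebraMap B F π ∈ O → π ∣ b)
    (hBO : ∀ b : B, algebraMap B F b ∈ O)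
    (hOmax : ∀ y ∈ O, y⁻¹ ∉ O → y / algebraMap B F π ∈ O)
    (m : ℕ) (h : F) (hh0 : h ≠ 0) (hhO : h ∈ O) (hhO' : h⁻¹ ∈ O)
    (hdiv : DivHyp B π m h)
    (S : Submonoid B) (hSπ : ∀ s ∈ S, ∀ c, s + π * c ∈ S) (hS3 : ∀ s ∈ S, ¬ π ∣ s)
    (hS4 : ∀ a c, a * c ∈ S → a ∈ S)
    (R : Type*) [CommRing R] [Algebra B R] [IsLocalization S R] [Algebra R F]
    [IsScalarTower B R F] [IsFractionRing R F]
    [IsDomain (R ⧸ Ideal.span {algebraMap B R π})]
    [IsPrincipalIdealRing (R ⧸ Ideal.span {algebraMap B R π})] :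
    ∃ (g : F) (a b : B), g ≠ 0 ∧ a ∈ S ∧ b ∈ S ∧
      g ^ m * h * algebraMap B F b = algebraMap B F a := by
  classical
  have hS0 : S ≤ nonZeroDivisors B := fun s hs =>
    mem_nonZeroDivisors_of_ne_zero fun h0 => hS3 s hs (h0 ▸ dvd_zero π)
  have : IsDomain R := IsLocalization.isDomain_of_le_nonZeroDivisors (R := B) (S := R)
    (M := S) hS0
  have : IsNoetherianRing R := IsLocalization.isNoetherianRing S R inferInstance
  set πR : R := algebraMap B R π with hπR
  have hinjBR : Function.Injective (algebraMap B R) := IsLocalization.injective R hS0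
  have hπR0 : πR ≠ 0 := by
    rw [hπR]; exact (map_ne_zero_iff _ hinjBR).2 hπ0
  have hπRjac : πR ∈ (⊥ : Ideal R).jacobson := sl_mem_jacobson π S hSπ R
  have : UniqueFactorizationMonoid R := ufd_of_quotient_pid_jac πR hπRjac hπR0
  have hπRprime : Prime πR := by
    rw [← Ideal.span_singleton_prime hπR0]
    exact (Ideal.Quotient.isDomain_iff_prime _).1 inferInstance
  have hπF : algebraMap B F π ≠ 0 := by
    simpa using hπ0
  have hmapπ : algebraMap R F πR = algebraMap B F π := by
    rw [hπR, ← IsScalarTower.algebraMap_apply]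
  have hQEPR : ∀ r : R, algebraMap R F r / algebraMap B F π ∈ O → πR ∣ r :=
    fun r hr => sl_qep O π hQEP hBO S hS3 R r hr
  have hRO : ∀ r : R, algebraMap R F r ∈ O := sl_mem_O O π hQEP hBO hOmax S hS3 R
  -- the `p`-adic unit hypothesis
  have H : PUnitUpToPow R m h := by
    intro p hp
    by_cases hpπ : p ∣ πR
    · -- `p ~ π`
      have hass : Associated p πR := hp.associated_of_dvd hπRprime hpπ
      obtain ⟨a, b, hab, e⟩ := IsFractionRing.exists_reduced_fraction R h
      have hb0 : (b : R) ≠ 0 := nonZeroDivisors.ne_zero b.2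
      have hbF : algebraMap R F b ≠ 0 := by simp
      rw [IsFractionRing.mk'_eq_div] at e
      have e' : h * algebraMap R F b = algebraMap R F a := by rw [← e]; field_simp
      refine ⟨1, a, b, one_ne_zero, ?_, ?_, by rw [one_pow, one_mul, e']⟩
      · intro hpa
        have hπa : πR ∣ a := hass.symm.dvd.trans hpa
        obtain ⟨a', ha'⟩ := id hπa
        have hπb : πR ∣ (b : R) := by
          apply hQEPR
          have : algebraMap R F b / algebraMap B F π = h⁻¹ * algebraMap R F a' := by
            rw [← hmapπ] at hπF ⊢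
            have : algebraMap R F b = h⁻¹ * algebraMap R F a := by rw [← e']; field_simp
            rw [this, ha', map_mul]
            field_simp
          rw [this]
          exact O.mul_mem _ _ hhO' (hRO a')
        exact hπRprime.not_isUnit (hab hπa hπb)
      · intro hpb
        have hπb : πR ∣ (b : R) := hass.symm.dvd.trans hpb
        obtain ⟨b', hb'⟩ := id hπb
        have hπa : πR ∣ a := by
          apply hQEPR
          have : algebraMap R F a / algebraMap B F π = h * algebraMap R F b' := by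
            rw [← hmapπ] at hπF ⊢
            rw [← e', hb', map_mul]
            field_simp
          rw [this]
          exact O.mul_mem _ _ hhO (hRO b')
        exact hπRprime.not_isUnit (hab hπa hπb)
    · set V := primeValSubring F p hp
      obtain ⟨g, hg, h1, h2⟩ := hdiv V inferInstance (primeValSubring_ne_top hp)
        (fun b => by
          rw [IsScalarTower.algebraMap_apply B R F]
          exact algebraMap_mem_primeValSubring hp _)
        (by rw [← hmapπ]; exact inv_mem_primeValSubring hp hpπ)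
      obtain ⟨a, b, ha, hb, e⟩ :=
        exists_of_mem_of_inv_mem hp (mul_ne_zero (pow_ne_zero _ hg) hh0) h1 h2
      exact ⟨g, a, b, hg, ha, hb, e⟩
  obtain ⟨g, u, hg, e⟩ := exists_root_unit m hh0 H
  obtain ⟨a, s, hu⟩ := IsLocalization.exists_mk'_eq S (u : R)
  obtain ⟨a', s', hu'⟩ := IsLocalization.exists_mk'_eq S ((u⁻¹ : Rˣ) : R)
  refine ⟨g, a, s, hg, ?_, s.2, ?_⟩
  · apply hS4 a a'
    have h1 : IsLocalization.mk' R a s * IsLocalization.mk' R a' s' = 1 := by
      rw [hu, hu', Units.mul_inv]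
    rw [← IsLocalization.mk'_mul, IsLocalization.mk'_eq_iff_eq_mul, one_mul] at h1
    have h2 : a * a' = ((s * s' : S) : B) := hinjBR h1
    rw [h2]
    exact (s * s').2
  · rw [e, ← hu, IsScalarTower.algebraMap_apply B R F (s : B), ← map_mul,
      IsLocalization.mk'_spec, ← IsScalarTower.algebraMap_apply]

/-- **Semilocal root lemma**, abstract form. -/
theorem exists_semilocal_root (O : ValuationSubring F) (π : B) (hπ0 : π ≠ 0)
    (hQEP : ∀ b : B, algebraMap B F b / algebraMap B F π ∈ O → π ∣ b)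
    (hBO : ∀ b : B, algebraMap B F b ∈ O)
    (hOmax : ∀ y ∈ O, y⁻¹ ∉ O → y / algebraMap B F π ∈ O)
    (hπO : (algebraMap B F π)⁻¹ ∉ O)
    (m : ℕ) (h : F) (hh0 : h ≠ 0) (hhO : h ∈ O) (hhO' : h⁻¹ ∈ O)
    (hdiv : DivHyp B π m h) [IsDedekindDomain (B ⧸ Ideal.span {π})]
    (g : B) (hg : algebraMap B F g / algebraMap B F π ∉ O)
    (S : Submonoid B) (hSπ : ∀ s ∈ S, ∀ c, s + π * c ∈ S) (hSg : ∀ s ∈ S, ∀ c, s + g * c ∈ S)
    (hS3 : ∀ s ∈ S, ¬ π ∣ s) (hS4 : ∀ a c, a * c ∈ S → a ∈ S) :
    ∃ (t : F) (a b : B), t ≠ 0 ∧ a ∈ S ∧ b ∈ S ∧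
      t ^ m * h * algebraMap B F b = algebraMap B F a := by
  have hS0 : S ≤ nonZeroDivisors B := fun s hs =>
    mem_nonZeroDivisors_of_ne_zero fun h0 => hS3 s hs (h0 ▸ dvd_zero π)
  let R := Localization.subalgebra.ofField F S hS0
  have : IsLocalization S R := Localization.subalgebra.isLocalization_ofField F S hS0
  have hprime : Prime (algebraMap B R π) := sl_prime O π hπ0 hQEP hBO hOmax hπO S hS3 R
  have hπF : algebraMap B F π ≠ 0 := by simpa using hπ0
  have hg' : ¬ algebraMap B R π ∣ algebraMap B R g := by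
    rintro ⟨c, hc⟩
    apply hg
    have h1 : algebraMap B F g = algebraMap B F π * algebraMap R F c := by
      rw [IsScalarTower.algebraMap_apply B R F g, hc, map_mul,
        ← IsScalarTower.algebraMap_apply B R F π]
    rw [h1, mul_div_cancel_left₀ _ hπF]
    exact sl_mem_O O π hQEP hBO hOmax S hS3 R c
  obtain ⟨h1, h2⟩ := sl_quotient_pid π g S hSg hS3 R hprime hg'
  exact exists_semilocal_root_aux O π hπ0 hQEP hBO hOmax m h hh0 hhO hhO' hdiv S hSπ hS3 hS4 R

end Fermat.Agent.S19.Int
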